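import Mathlib
import Fermat.Prelude.Def_ModularCurve_HeckeOperatorTotal
import Fermat.Agent.MU.S24.RHCounts
import Fermat.Agent.MU.Lib.HeckeInputs.FundId

section MergeWrap_Lib_HeckeInputs_Modular -- from Lib/HeckeInputs/Modular.lean

set_option autoImplicit false
set_option linter.unusedSectionVars false
set_option linter.style.haveILetI false

/-!
# Hecke inputs: `HeckeInputsAlong L N ℓ` from "the function fields are function fields"

`L` algebraically closed of characteristic zero.  If the fields
`laurentBaseChange L (modularFunctionFieldFull M)` (`M = N` and `M = N * ℓ`) are function fields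
in one variable over `L`, then all six inputs of `ModularCurve.HeckeInputsAlong L N ℓ` hold.
-/

noncomputable section

open AlgebraicCurve IntermediateField Fermat.Agent.S24Diff

namespace Fermat.Agent.HeckeInputs

section Along

variable {K F F' : Type*} [Field K] [Field F] [Field F'] [Algebra K F] [Algebra K F']
  [IsAlgClosed K] [CharZero K]

/-- a morphism of function fields is finite. -/
theorem hi_finiteAlong (φ : F →ₐ[K] F') {x : F} (hx : Transcendental K x) {x' : F'}
    (h' : IsFunctionFieldOver K F' x') : FiniteAlong K φ := by
  letI := algebraAlong φ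
  have hy : Transcendental K (φ x) := by
    intro h
    exact hx ((isAlgebraic_algHom_iff φ φ.injective).mp h)
  haveI := Fermat.Agent.S24Res.finiteDimensional_adjoin_simple h' hy
  obtain ⟨S, hS⟩ := Module.Finite.fg_top (R := K⟮φ x⟯) (M := F')
  have hle : K⟮φ x⟯ ≤ φ.fieldRange := by
    rw [IntermediateField.adjoin_le_iff, Set.singleton_subset_iff]
    exact ⟨x, rfl⟩
  show Module.Finite F F'
  refine ⟨⟨S, ?_⟩⟩
  rw [eq_top_iff]
  rintro z -
  have hz : z ∈ Submodule.span K⟮φ x⟯ (S : Set F') := by
    rw [hS]
    trivial
  induction hz using Submodule.span_induction with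
  | mem w hw => exact Submodule.subset_span hw
  | zero => exact zero_mem _
  | add a b _ _ ha hb => exact add_mem ha hb
  | smul c w _ hw =>
    obtain ⟨y, hy⟩ := hle c.2
    have h1 : c • w = y • w := by
      rw [Algebra.smul_def, Algebra.smul_def]
      congr 1
      exact hy.symm
    rw [h1]
    exact Submodule.smul_mem _ _ hw

/-- a finite morphism is integral. -/
theorem hi_isIntegral_of_finiteAlong (φ : F →ₐ[K] F') (hfin : FiniteAlong K φ) :
    φ.toRingHom.IsIntegral := by
  letI := algebraAlong φ
  haveI : Module.Finite F F' := hfin
  intro z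
  exact (Algebra.IsIntegral.of_finite F F').isIntegral z

/-- the fundamental identity along a morphism of function fields. -/
theorem hi_fundamentalIdentityAlong (φ : F →ₐ[K] F') (hφ : φ.toRingHom.IsIntegral)
    [HasPrincipalDivisors K F'] {x : F} (h : IsFunctionFieldOver K F x) {x' : F'}
    (h' : IsFunctionFieldOver K F' x') : FundamentalIdentityAlong K φ hφ := by
  letI := algebraAlong φ
  haveI := isScalarTower_along φ
  haveI : FiniteDimensional F F' := hi_finiteAlong φ h.transcendental h'
  exact hi_fundamentalIdentity K F F' h h'

/-- the norm formula along a morphism of function fields. -/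
theorem hi_normFormulaAlong (φ : F →ₐ[K] F') (hfin : FiniteAlong K φ)
    [HasPrincipalDivisors K F'] {x : F} (h : IsFunctionFieldOver K F x) {x' : F'}
    (h' : IsFunctionFieldOver K F' x') : NormFormulaAlong K φ hfin := by
  letI := algebraAlong φ
  haveI := isScalarTower_along φ
  haveI : FiniteDimensional F F' := hfin
  exact hi_pushforwardNormFormula K F F' h h'

end Along

section Modular

open ModularCurve

variable (L : Type*) [Field L] [Algebra ℚ L] [IsAlgClosed L] [CharZero L]
  (N ℓ : ℕ) [NeZero N] [NeZero ℓ]

/-- all the inputs of the Hecke correspondence `T_ℓ` on `J₀(N)` over `L`, if the function fields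
of level `N` and `N * ℓ` over `L` are function fields in one variable. -/
theorem hi_heckeInputsAlong_of_isFunctionFieldOver
    {x : laurentBaseChange L (modularFunctionFieldFull N)}
    (h : IsFunctionFieldOver L (laurentBaseChange L (modularFunctionFieldFull N)) x)
    {x' : laurentBaseChange L (modularFunctionFieldFull (N * ℓ))}
    (h' : IsFunctionFieldOver L (laurentBaseChange L (modularFunctionFieldFull (N * ℓ))) x') :
    HeckeInputsAlong L N ℓ := by
  have hfinα : FiniteAlong L (heckeAlphaBar L N ℓ) := hi_finiteAlong _ h.transcendental h'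
  have hfinβ : FiniteAlong L (heckeBetaBar L N ℓ) := hi_finiteAlong _ h.transcendental h'
  have hα : HeckeAlphaBarIntegral L N ℓ := hi_isIntegral_of_finiteAlong _ hfinα
  have hβ : HeckeBetaBarIntegral L N ℓ := hi_isIntegral_of_finiteAlong _ hfinβ
  haveI hP : HasPrincipalDivisors L (laurentBaseChange L (modularFunctionFieldFull (N * ℓ))) :=
    hasPrincipalDivisors h'
  exact ⟨hα, hβ, hP, hfinα, hi_fundamentalIdentityAlong _ hβ h h',
    hi_normFormulaAlong _ hfinα h h'⟩

end Modular

end Fermat.Agent.HeckeInputs
end
end MergeWrap_Lib_HeckeInputs_Modular
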