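import Mathlib
import Fermat.Prelude.Def_ModularCurve_HeckeOperatorTotal
import Fermat.Agent.MU.F3.DictC.GlobalDatum
import Fermat.Agent.MU.Lib.HeckeInputs.Modular

section MergeWrap_Lib_HeckeInputs_Complex -- from Lib/HeckeInputs/Complex.lean

set_option autoImplicit false

/-!
# Hecke inputs over `ℂ`

`ModularCurve.HeckeInputsAlong ℂ N ℓ` for all `N`, `ℓ`, from the port of S24's analytic half to
`ℂ` (`Fermat.Agent.F3Dict.isFunctionFieldOver_jBar`).
-/

namespace Fermat.Agent.HeckeInputs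

/-- all the inputs of the Hecke correspondence `T_ℓ` on `J₀(N)` over `ℂ`. -/
theorem hi_heckeInputsAlong_complex (N ℓ : ℕ) [NeZero N] [NeZero ℓ] :
    ModularCurve.HeckeInputsAlong ℂ N ℓ :=
  hi_heckeInputsAlong_of_isFunctionFieldOver ℂ N ℓ
    (Fermat.Agent.F3Dict.isFunctionFieldOver_jBar N)
    (Fermat.Agent.F3Dict.isFunctionFieldOver_jBar (N * ℓ))

end Fermat.Agent.HeckeInputs
end MergeWrap_Lib_HeckeInputs_Complex
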