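import Mathlib
import Fermat.Prelude.Def_ModularCurve_HeckeOperatorTotal
import Fermat.Agent.MU.S24.GlobalDatum
import Fermat.Agent.MU.Lib.HeckeInputs.Modular

section MergeWrap_Lib_HeckeInputs_Qbar -- from Lib/HeckeInputs/Qbar.lean

set_option autoImplicit false

/-!
# Hecke inputs over `ℚ̄`

`ModularCurve.HeckeInputsAlong (AlgebraicClosure ℚ) N ℓ` for all `N`, `ℓ`, from S24's
`isFunctionFieldOver_jBar`.
-/

namespace Fermat.Agent.HeckeInputs

/-- all the inputs of the Hecke correspondence `T_ℓ` on `J₀(N)` over `ℚ̄`. -/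
theorem hi_heckeInputsAlong_Qbar (N ℓ : ℕ) [NeZero N] [NeZero ℓ] :
    ModularCurve.HeckeInputsAlong (AlgebraicClosure ℚ) N ℓ :=
  hi_heckeInputsAlong_of_isFunctionFieldOver (AlgebraicClosure ℚ) N ℓ
    (Fermat.Agent.S24.isFunctionFieldOver_jBar N)
    (Fermat.Agent.S24.isFunctionFieldOver_jBar (N * ℓ))

end Fermat.Agent.HeckeInputs
end MergeWrap_Lib_HeckeInputs_Qbar
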